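import Fermat.Agent.AV.Abel.Center
import Fermat.Agent.Row27.BaseData

/-!
# Curve data with the embeddings of the function field
-/

set_option autoImplicit false

noncomputable section

open AlgebraicCurve
open Fermat.Agent.FunctionFieldRR

namespace Fermat.Agent.AV

open Fermat.Agent.Row27

universe u

/-- The curve data of a function field, with the function field inside every base change. -/
theorem exists_curveBase (K : Type u) [Field K] [IsAlgClosed K] (F : Type*) [Field F]
    [Algebra K F] [IsFunctionField K F] (O : Place K F) :
    ∃ (C : CurveData K) (_ : CurveBase C) (e : F ≃ₐ[K] C.curve K), C.g = genusFF K F ∧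
      ∀ f : F, (C.inf K).ord (e f) = O.ord f := by
  obtain ⟨C⟩ := nonempty_coord O
  refine ⟨C.curveData,
    { funField := isFunctionField_Ext O K
      emb := fun L _ _ _ => (el O L).comp (extSelfEquiv O).symm.toRingEquiv.toRingHom
      emb_realF := fun L _ _ _ b x => ?_
      ord_inf := fun L _ _ _ f => ?_ }, extSelfEquiv O, ?_, fun f => ord_infL_el f⟩
  · have h1 : C.realL (L := K) (el O K) b x =
        extSelfEquiv O (C.realL (L := K) (RingHom.id F) b x) := by
      have h := C.realL_algebraMap (L := K) b x
      simp only [Algebra.algebraMap_self, RingHom.id_apply] at h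
      exact h
    show el O L ((extSelfEquiv O).symm (C.realL (L := K) (el O K) b x)) = _
    rw [h1, AlgEquiv.symm_apply_apply]
    exact (C.realL_algebraMap (L := L) b x).symm
  · show (infL O L).ord (el O L ((extSelfEquiv O).symm f)) = (infL O K).ord f
    rw [ord_infL_el]
    conv_rhs => rw [← (extSelfEquiv O).apply_symm_apply f]
    exact (ord_infL_el (L := K) _).symm
  · show gBound K F = _
    rw [← card_gaps_eq_gBound O, genusFF_eq_card_gaps O]

end Fermat.Agent.AV

end
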