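import Fermat.Agent.AV.Abel.SpecFacts
import Fermat.Agent.Row27.SpecTheory.Main
import Fermat.Agent.Row27.Points
import Fermat.Agent.FunctionFieldRR.PlaceExists

/-!
# The centre of a place on the curve over `K`

A place of the curve over `L` gives a specialisation of the function field over `K`; it commutes
with the specialisation of places.
-/

set_option autoImplicit false

noncomputable section

open AlgebraicCurve Module Fermat.Agent.MWJ0
open Fermat.Agent.FunctionFieldRR (IsFunctionField)

namespace Fermat.Agent.AV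

open Fermat.Agent.Row27

universe u

section Specs

variable {K M M' : Type u} [Field K] [Field M] [Algebra K M] [Field M'] [Algebra K M']

lemma spec_ext {A B : Spec K M M'} (hd : A.dom = B.dom)
    (hm : ∀ (x : M) (hA : x ∈ A.dom) (hB : x ∈ B.dom), A.map ⟨x, hA⟩ = B.map ⟨x, hB⟩) : A = B := by
  cases A with
  | mk da ta ma ca za =>
  cases B with
  | mk db tb mb cb zb =>
  cases hd
  have : ma = mb := RingHom.ext fun x => hm x.1 x.2 x.2
  subst this
  rfl

/-- A value in `K` modulo the maximal ideal is the value. -/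
lemma Spec.map_eq_const (A : Spec K M M') {x : M} (hx : x ∈ A.dom) {c : K}
    (hc : ¬ IsUnit ((⟨x, hx⟩ : A.dom) - ⟨algebraMap K M c, A.trivOn c⟩)) :
    A.map ⟨x, hx⟩ = algebraMap K M' c := by
  have h := (A.map_eq_zero _).2 hc
  rw [map_sub, sub_eq_zero, A.map_algebraMap] at h
  exact h

end Specs

section Places

variable {L G : Type*} [Field L] [Field G] [Algebra L G]

lemma Place.not_isUnit_iff (P : Place L G) {x : G} (hx : x ∈ P.toValuationSubring) :
    ¬ IsUnit (⟨x, hx⟩ : P.toValuationSubring) ↔ x = 0 ∨ 1 ≤ P.ord x := by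
  rcases eq_or_ne x 0 with rfl | hx0
  · exact iff_of_true (fun h => h.ne_zero rfl) (Or.inl rfl)
  have h0 := (mem_valuationSubring_iff_ord.1 hx).resolve_left hx0
  constructor
  · intro hu
    refine Or.inr ?_
    by_contra h
    refine hu (isUnit_iff_exists_inv.2 ⟨⟨x⁻¹, mem_valuationSubring_iff_ord.2 (Or.inr ?_)⟩,
      Subtype.ext (mul_inv_cancel₀ hx0)⟩)
    rw [P.ord_inv]
    omega
  · rintro (e | h) hu
    · exact hx0 e
    · have := P.ord_coe_unit hu.unit
      rw [hu.unit_spec] at this
      change P.ord x = 0 at this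
      omega

end Places

variable {K : Type u} [Field K] [IsAlgClosed K]

/-- The curve over `K` inside its base changes. -/
structure CurveBase (C : CurveData K) where
  funField : IsFunctionField K (C.curve K)
  emb : ∀ (L : Type u) [Field L] [Algebra K L] [IsAlgClosed L], C.curve K →+* C.curve L
  emb_realF : ∀ (L : Type u) [Field L] [Algebra K L] [IsAlgClosed L] (b : ℕ) (x : C.Idx b → K),
    emb L (C.realF K b x) = C.realF L b fun i => algebraMap K L (x i)
  ord_inf : ∀ (L : Type u) [Field L] [Algebra K L] [IsAlgClosed L] (f : C.curve K),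
    (C.inf L).ord (emb L f) = (C.inf K).ord f

namespace CurveBase

variable {C : CurveData K} (E : CurveBase C)
variable {L L' : Type u} [Field L] [Algebra K L] [IsAlgClosed L] [Field L'] [Algebra K L']
  [IsAlgClosed L']

lemma emb_algebraMap (c : K) :
    E.emb L (algebraMap K (C.curve K) c) = algebraMap L (C.curve L) (algebraMap K L c) := by
  have h1 : algebraMap K (C.curve K) c = C.realF K 0 (c • fun i => C.one 0 i) := by
    rw [map_smul, Algebra.algebraMap_eq_smul_one]
    congr 1
    exact (C.realF_one K 0).symm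
  have h2 : (fun i => algebraMap K L ((c • fun i => C.one 0 i) i)) =
      algebraMap K L c • fun i => algebraMap K L (C.one 0 i) := funext fun i => by simp
  rw [h1, E.emb_realF, h2, map_smul, C.realF_one, Algebra.smul_def, mul_one]

/-- The specialisation of the function field over `K` at a place over `L`. -/
def pullSpec (P : Place L (C.curve L)) : Spec K (C.curve K) L where
  dom := P.toValuationSubring.comap (E.emb L)
  trivOn c := by
    show E.emb L (algebraMap K (C.curve K) c) ∈ P.toValuationSubring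
    rw [E.emb_algebraMap]
    exact P.algebraMap_mem' _
  map := (constRes (constResidue_place ((C.rr L).deg_one P))).comp
    (((E.emb L).comp (P.toValuationSubring.comap (E.emb L)).subtype).codRestrict
      P.toValuationSubring fun x => x.2)
  map_algebraMap c := by
    refine Eq.trans ?_ (constRes_const (constResidue_place ((C.rr L).deg_one P)) (algebraMap K L c))
    exact congrArg (constRes (constResidue_place ((C.rr L).deg_one P)))
      (Subtype.ext (E.emb_algebraMap c))
  map_eq_zero x := by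
    rw [RingHom.comp_apply, constRes_eq_zero]
    refine not_congr ⟨fun hu => ?_, fun hu => hu.map _⟩
    obtain ⟨y, hy⟩ := isUnit_iff_exists_inv.1 hu
    have hy' : E.emb L x * (y : C.curve L) = 1 := congrArg Subtype.val hy
    have hx0 : (x : C.curve K) ≠ 0 := fun e => by simp [e] at hy'
    refine isUnit_iff_exists_inv.2 ⟨⟨(x : C.curve K)⁻¹, ?_⟩, Subtype.ext (mul_inv_cancel₀ hx0)⟩
    show E.emb L (x : C.curve K)⁻¹ ∈ P.toValuationSubring
    rw [map_inv₀, inv_eq_of_mul_eq_one_right hy']
    exact y.2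

lemma mem_pullSpec {P : Place L (C.curve L)} {f : C.curve K} :
    f ∈ (E.pullSpec P).dom ↔ E.emb L f ∈ P.toValuationSubring := Iff.rfl

/-- The value is characterised by vanishing. -/
lemma pullSpec_map_eq {P : Place L (C.curve L)} {f : C.curve K} (hf : f ∈ (E.pullSpec P).dom)
    {a : L} (h : E.emb L f - algebraMap L _ a = 0 ∨ 1 ≤ P.ord (E.emb L f - algebraMap L _ a)) :
    (E.pullSpec P).map ⟨f, hf⟩ = a := by
  set hr := constResidue_place ((C.rr L).deg_one P)
  have hmem : E.emb L f - algebraMap L _ a ∈ P.toValuationSubring :=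
    sub_mem hf (P.algebraMap_mem' a)
  have h0 := (constRes_eq_zero hr ⟨_, hmem⟩).2 ((Place.not_isUnit_iff P hmem).2 h)
  have e : (⟨_, hmem⟩ : P.toValuationSubring) =
      ⟨E.emb L f, hf⟩ - constHom _ (fun c => P.algebraMap_mem' c) a := rfl
  rw [e, map_sub, constRes_const, sub_eq_zero] at h0
  exact h0

lemma pullSpec_map_sub {P : Place L (C.curve L)} {f : C.curve K} (hf : f ∈ (E.pullSpec P).dom) :
    E.emb L f - algebraMap L _ ((E.pullSpec P).map ⟨f, hf⟩) = 0 ∨
      1 ≤ P.ord (E.emb L f - algebraMap L _ ((E.pullSpec P).map ⟨f, hf⟩)) := by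
  set hr := constResidue_place ((C.rr L).deg_one P)
  have hmem : E.emb L f - algebraMap L _ ((E.pullSpec P).map ⟨f, hf⟩) ∈ P.toValuationSubring :=
    sub_mem hf (P.algebraMap_mem' _)
  refine (Place.not_isUnit_iff P hmem).1 ((constRes_eq_zero hr _).1 ?_)
  have e : (⟨_, hmem⟩ : P.toValuationSubring) = ⟨E.emb L f, hf⟩ -
      constHom _ (fun c => P.algebraMap_mem' c) ((E.pullSpec P).map ⟨f, hf⟩) := rfl
  rw [e, map_sub, constRes_const, sub_eq_zero]
  rfl

lemma mem_pullSpec_inf {f : C.curve K} :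
    f ∈ (E.pullSpec (C.inf L)).dom ↔ f ∈ (C.inf K).toValuationSubring := by
  rw [E.mem_pullSpec, mem_valuationSubring_iff_ord, mem_valuationSubring_iff_ord, E.ord_inf,
    map_eq_zero]

lemma mem_pullSpec_of_regular {P : Place L (C.curve L)} (hP : P ≠ C.inf L) {b : ℕ}
    {f : C.curve K} (hf : f ∈ riemannRochSpace (C.binf K (b : ℤ))) :
    f ∈ (E.pullSpec P).dom := by
  obtain ⟨x, rfl⟩ := C.exists_realF_eq hf
  rw [E.mem_pullSpec, E.emb_realF, mem_valuationSubring_iff_ord]
  refine (mem_Lsp.1 (C.realF_mem b fun i => algebraMap K L (x i)) P).imp_right fun h => ?_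
  rwa [CurveData.binf, Finsupp.single_eq_of_ne hP, neg_zero] at h

/-- A regular function of exact large pole order. -/
lemma exists_exact {b : ℕ} (hb : 2 * C.g + 1 ≤ b) :
    ∃ f ∈ riemannRochSpace (C.binf K (b : ℤ)), f ≠ 0 ∧ (C.inf K).ord f = -(b : ℤ) := by
  obtain ⟨f, hf, hf'⟩ := SetLike.not_le_iff_exists.1
    ((C.rr K).Lsp_sub_single_ne (C.binf K (b : ℤ)) (C.inf K)
      (by rw [C.rr_g, C.deg_binf]; omega))
  have h0 : f ≠ 0 := fun e => hf' (e ▸ zero_mem _)
  refine ⟨f, hf, h0, ?_⟩
  have h1 := (mem_Lsp_of_ne_zero h0).1 hf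
  have h2 := h1 (C.inf K)
  rw [CurveData.binf, Finsupp.single_eq_same] at h2
  by_contra h3
  refine hf' ((mem_Lsp_of_ne_zero h0).2 fun v => ?_)
  rcases eq_or_ne v (C.inf K) with rfl | hv
  · rw [Finsupp.sub_apply, CurveData.binf, Finsupp.single_eq_same, Finsupp.single_eq_same]
    omega
  · rw [Finsupp.sub_apply, Finsupp.single_eq_of_ne hv, sub_zero]
    exact h1 v

variable (φ : Spec K L L') (P : Place L (C.curve L))

/-- The key: a regular value specialises, a pole goes to infinity. -/
lemma key {P : Place L (C.curve L)} (hP : P ≠ C.inf L) {b : ℕ} (hb : 2 * C.g + 1 < b)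
    {f : C.curve K} (hf : f ∈ riemannRochSpace (C.binf K (b : ℤ))) :
    let a := (E.pullSpec P).map ⟨f, E.mem_pullSpec_of_regular hP hf⟩
    (∀ ha : a ∈ φ.dom,
      E.emb L' f - algebraMap L' _ (φ.map ⟨a, ha⟩) ∈ riemannRochSpace
        (C.binf L' (b : ℤ) - Finsupp.single ((specTheory C).place φ P) 1)) ∧
    (a ∉ φ.dom → (specTheory C).place φ P = C.inf L') := by
  intro a
  obtain ⟨x, rfl⟩ := C.exists_realF_eq hf
  set P' := (specTheory C).place φ P with hP'
  have hS := (specTheory C).mapSub_W φ (Finsupp.single P 1)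
    (Finsupp.single_nonneg.2 zero_le_one) b (by rw [(C.rr L).degree_single]; omega)
  rw [Finsupp.mapDomain_single] at hS
  let v : C.Idx b → L := fun i => algebraMap K L (x i) - a * algebraMap K L (C.one b i)
  have hreal : C.realF L b v = E.emb L (C.realF K b x) - algebraMap L _ a := by
    have e : v = (fun i => algebraMap K L (x i)) - a • fun i => algebraMap K L (C.one b i) := rfl
    rw [e, map_sub, map_smul, C.realF_one, E.emb_realF, Algebra.algebraMap_eq_smul_one]
  have hv : v ∈ C.W L b (Finsupp.single P 1) := by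
    rw [C.mem_W, hreal, mem_Lsp]
    intro w
    rcases eq_or_ne w P with rfl | hw
    · refine (E.pullSpec_map_sub (E.mem_pullSpec_of_regular hP hf)).imp_right fun h => ?_
      rw [Finsupp.sub_apply, CurveData.binf, Finsupp.single_eq_same, Finsupp.single_eq_of_ne hP]
      simpa using h
    · have h := mem_Lsp.1 (C.realF_mem b v) w
      rw [hreal] at h
      rwa [Finsupp.sub_apply, Finsupp.single_eq_of_ne hw, sub_zero]
  refine ⟨fun ha => ?_, fun ha => ?_⟩
  · let v' : C.Idx b → φ.dom := fun i => ⟨algebraMap K L (x i), φ.trivOn _⟩ -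
      ⟨a, ha⟩ * ⟨algebraMap K L (C.one b i), φ.trivOn _⟩
    have h := φ.mem_mapSub_of_mem v' hv
    rw [hS, C.mem_W] at h
    have e : (fun i => φ.map (v' i)) = (fun i => algebraMap K L' (x i)) -
        φ.map ⟨a, ha⟩ • fun i => algebraMap K L' (C.one b i) := funext fun i => by
      show φ.map (v' i) = algebraMap K L' (x i) - φ.map ⟨a, ha⟩ * algebraMap K L' (C.one b i)
      rw [map_sub, map_mul, φ.map_algebraMap, φ.map_algebraMap]
    rw [e, map_sub, map_smul, C.realF_one, ← E.emb_realF, ← Algebra.algebraMap_eq_smul_one] at h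
    exact h
  · obtain ⟨ha0, hi, hi0⟩ := (Spec.not_mem_iff φ).1 ha
    let v' : C.Idx b → φ.dom := fun i => ⟨a⁻¹, hi⟩ * ⟨algebraMap K L (x i), φ.trivOn _⟩ -
      ⟨algebraMap K L (C.one b i), φ.trivOn _⟩
    have e0 : (fun i => (v' i : L)) = a⁻¹ • v := funext fun i => by
      simp [v', v, mul_sub, ← mul_assoc, inv_mul_cancel₀ ha0]
    have h := φ.mem_mapSub_of_mem v' (e0 ▸ Submodule.smul_mem _ _ hv)
    rw [hS, C.mem_W] at h
    have e : (fun i => φ.map (v' i)) = -fun i => algebraMap K L' (C.one b i) := funext fun i => by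
      rw [map_sub, map_mul, φ.map_algebraMap, φ.map_algebraMap, hi0, zero_mul, zero_sub]
      rfl
    rw [e, map_neg, C.realF_one, Submodule.neg_mem_iff] at h
    by_contra hne
    have h1 := (mem_Lsp_of_ne_zero (one_ne_zero (α := C.curve L'))).1 h P'
    rw [Finsupp.sub_apply, CurveData.binf, Finsupp.single_eq_same, Finsupp.single_eq_of_ne hne,
      Place.ord_one] at h1
    omega

/-- Proper valuation rings over `K` of the curve are places. -/
def placeOf (E : CurveBase C) (V : ValuationSubring (C.curve K)) (h : TrivOn K V) (hne : V ≠ ⊤) :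
    Place K (C.curve K) :=
  haveI := E.funField
  { toValuationSubring := V
    algebraMap_mem' := h
    ne_top' := hne
    isPrincipalIdealRing' :=
      FunctionFieldRR.isPrincipalIdealRing_valuationSubring (O := V) h hne }

lemma eq_inf_of_not_mem {Q : Place K (C.curve K)} {b : ℕ} {f : C.curve K}
    (hf : f ∈ riemannRochSpace (C.binf K (b : ℤ))) (hQ : f ∉ Q.toValuationSubring) :
    Q = C.inf K := by
  by_contra hne
  refine hQ (mem_valuationSubring_iff_ord.2 ((mem_Lsp.1 hf Q).imp_right fun h => ?_))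
  rwa [CurveData.binf, Finsupp.single_eq_of_ne hne, neg_zero] at h

/-- Every function is a quotient of two regular ones. -/
lemma exists_quot (f : C.curve K) : ∃ (b : ℕ) (u w : C.curve K),
    u ∈ riemannRochSpace (C.binf K (b : ℤ)) ∧ w ∈ riemannRochSpace (C.binf K (b : ℤ)) ∧
      u ≠ 0 ∧ f * u = w := by
  rcases eq_or_ne f 0 with rfl | hf
  · refine ⟨0, 1, 0, mem_Lsp.2 fun v => Or.inr ?_, zero_mem _, one_ne_zero, zero_mul 1⟩
    simp [CurveData.binf, Place.ord_one]
  set D := (C.rr K).divisor hf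
  have hp : (0 : Divisor K (C.curve K)) ≤ -D ⊔ 0 := le_sup_right
  obtain ⟨d, hd⟩ := Int.eq_ofNat_of_zero_le ((C.rr K).degree_nonneg hp)
  set b := 2 * C.g + d + 1
  have := (C.rr K).finite (C.binf K (b : ℤ) - (-D ⊔ 0))
  have hne : riemannRochSpace (C.binf K (b : ℤ) - (-D ⊔ 0)) ≠ ⊥ := fun e => by
    have h := (C.rr K).dim_eq (C.binf K (b : ℤ) - (-D ⊔ 0))
      (by rw [C.rr_g, map_sub, C.deg_binf, hd]; omega)
    rw [e, finrank_bot, C.rr_g, map_sub, C.deg_binf, hd] at h
    omega
  obtain ⟨u, huD, hu0⟩ := (Submodule.ne_bot_iff _).1 hne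
  refine ⟨b, u, f * u, C.Lsp_le_binf hp huD, ?_, hu0, rfl⟩
  rw [mem_Lsp_of_ne_zero (mul_ne_zero hf hu0)]
  intro v
  have h := (mem_Lsp_of_ne_zero hu0).1 huD v
  rw [Finsupp.sub_apply, Finsupp.sup_apply, Finsupp.zero_apply, Finsupp.neg_apply,
    (C.rr K).divisor_apply] at h
  rw [v.ord_mul hf hu0]
  omega

lemma regular_le {b c : ℕ} (h : b ≤ c) :
    riemannRochSpace (C.binf K (b : ℤ)) ≤ riemannRochSpace (C.binf K (c : ℤ)) :=
  Lsp_mono (Finsupp.single_le_single.2 (by exact_mod_cast h))

/-- **The centre commutes with specialisation.** -/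
theorem pullSpec_comp :
    specComp (E.pullSpec P) φ = E.pullSpec ((specTheory C).place φ P) := by
  classical
  set A := specComp (E.pullSpec P) φ
  set P' := (specTheory C).place φ P with hP'
  -- at infinity both have the valuation ring of `∞` over `K`
  have hinf : ∀ B : Spec K (C.curve K) L', B.dom = (C.inf K).toValuationSubring →
      ∀ x (hx : x ∈ B.dom), ∃ c : K, x - algebraMap K _ c ∈ (C.inf K).toValuationSubring ∧
        B.map ⟨x, hx⟩ = algebraMap K L' c ∧
        ∀ B' : Spec K (C.curve K) L', B'.dom = (C.inf K).toValuationSubring →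
          ∀ hx' : x ∈ B'.dom, B'.map ⟨x, hx'⟩ = algebraMap K L' c := by
    intro B hB x hx
    obtain ⟨c, hc⟩ := constResidue_place ((C.rr K).deg_one (C.inf K)) ⟨x, hB ▸ hx⟩
    have key : ∀ B' : Spec K (C.curve K) L', B'.dom = (C.inf K).toValuationSubring →
        ∀ hx' : x ∈ B'.dom, B'.map ⟨x, hx'⟩ = algebraMap K L' c := by
      intro B' hB' hx'
      refine Spec.map_eq_const B' hx' fun hu => hc ?_
      obtain ⟨d, md, cd, zd⟩ := B'
      cases hB'
      exact hu
    exact ⟨c, sub_mem (hB ▸ hx) ((C.inf K).algebraMap_mem' c), key B hB hx, key⟩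
  have hext_inf : A.dom = (C.inf K).toValuationSubring → P' = C.inf L' →
      A = E.pullSpec P' := fun hA hP'i => by
    have hB : (E.pullSpec P').dom = (C.inf K).toValuationSubring :=
      SetLike.ext fun f => by rw [hP'i]; exact E.mem_pullSpec_inf
    refine spec_ext (hA.trans hB.symm) fun x hxA hxB => ?_
    obtain ⟨c, -, h1, h2⟩ := hinf A hA x hxA
    rw [h1, h2 _ hB hxB]
  by_cases hP : P = C.inf L
  · refine hext_inf (SetLike.ext fun f => ?_) (by rw [hP', hP, (specTheory C).place_inf])
    constructor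
    · rintro ⟨h, -⟩
      rwa [hP, E.mem_pullSpec_inf] at h
    · intro hf
      obtain ⟨c, hc⟩ := constResidue_place ((C.rr K).deg_one (C.inf K)) ⟨f, hf⟩
      have hfP : f ∈ (E.pullSpec P).dom := by rw [hP, E.mem_pullSpec_inf]; exact hf
      refine ⟨hfP, ?_⟩
      have e : (E.pullSpec P).map ⟨f, hfP⟩ = algebraMap K L c := by
        refine Spec.map_eq_const _ hfP fun hu => hc ?_
        obtain ⟨y, hy⟩ := isUnit_iff_exists_inv.1 hu
        have hy2 : (y : C.curve K) ∈ (C.inf K).toValuationSubring := by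
          have h : ∀ Q, Q = C.inf L → (y : C.curve K) ∈ (E.pullSpec Q).dom →
              (y : C.curve K) ∈ (C.inf K).toValuationSubring := fun Q hQ hy => by
            subst hQ
            exact E.mem_pullSpec_inf.1 hy
          exact h P hP y.2
        exact isUnit_iff_exists_inv.2 ⟨⟨y, hy2⟩, Subtype.ext (congrArg Subtype.val hy :)⟩
      rw [e]
      exact φ.trivOn c
  · -- a regular function with a pole after specialisation
    by_cases hpole : ∃ b : ℕ, ∃ f ∈ riemannRochSpace (C.binf K (b : ℤ)), f ∉ A.dom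
    · obtain ⟨b, f, hf, hfA⟩ := hpole
      have hP'i : P' = C.inf L' := by
        refine (E.key φ hP (b := b + 2 * C.g + 2) (by omega)
          (regular_le (by omega) hf)).2 fun ha => hfA ?_
        exact ⟨E.mem_pullSpec_of_regular hP hf, ha⟩
      refine hext_inf ?_ hP'i
      have hne : A.dom ≠ ⊤ := fun e => hfA (e ▸ ValuationSubring.mem_top f)
      exact congrArg Place.toValuationSubring
        (eq_inf_of_not_mem (Q := E.placeOf A.dom A.trivOn hne) hf hfA)
    push Not at hpole
    have hP'i : P' ≠ C.inf L' := by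
      intro e
      set b := 2 * C.g + 2
      obtain ⟨f, hf, hf0, hford⟩ := exists_exact (C := C) (b := b) (by omega)
      have h := (E.key φ hP (b := b) (by omega) hf).1 (hpole b f hf).2
      rw [← hP', e] at h
      set a := φ.map ⟨_, (hpole b f hf).2⟩
      have h1 : C.binf L' (b : ℤ) - Finsupp.single (C.inf L') 1 = C.binf L' ((b : ℤ) - 1) := by
        rw [CurveData.binf, CurveData.binf, Finsupp.single_sub]
      rw [h1] at h
      have h2 : algebraMap L' (C.curve L') a ∈ riemannRochSpace (C.binf L' ((b : ℤ) - 1)) := by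
        refine C.const_mem_Lsp ?_ a
        rw [CurveData.binf, Finsupp.single_nonneg]
        omega
      have h3 := add_mem h h2
      rw [sub_add_cancel] at h3
      have h4 := (mem_Lsp_of_ne_zero ((map_ne_zero _).2 hf0)).1 h3 (C.inf L')
      rw [E.ord_inf, hford, CurveData.binf, Finsupp.single_eq_same] at h4
      omega
    set B := E.pullSpec P'
    have hreg : ∀ b : ℕ, ∀ f ∈ riemannRochSpace (C.binf K (b : ℤ)), f ∈ B.dom :=
      fun b f hf => E.mem_pullSpec_of_regular hP'i hf
    have hval : ∀ b : ℕ, ∀ f ∈ riemannRochSpace (C.binf K (b : ℤ)), ∀ (hA : f ∈ A.dom)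
        (hB : f ∈ B.dom),
        A.map ⟨f, hA⟩ = B.map ⟨f, hB⟩ := by
      intro b f hf hA hB
      have h := (E.key φ hP (b := b + 2 * C.g + 2) (by omega) (regular_le (by omega) hf)).1 hA.2
      symm
      refine E.pullSpec_map_eq hB ((mem_Lsp.1 h P').imp_right fun h => ?_)
      rw [← hP', Finsupp.sub_apply, CurveData.binf, Finsupp.single_eq_same,
        Finsupp.single_eq_of_ne hP'i] at h
      rw [zero_sub, neg_neg] at h
      exact h
    -- regular functions determine the specialisation
    have hker : ∀ (S : Spec K (C.curve K) L') (hne : S.dom ≠ ⊤),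
        E.placeOf S.dom S.trivOn hne ≠ C.inf K →
        ∀ (b : ℕ) f (hf : f ∈ riemannRochSpace (C.binf K (b : ℤ))) (hS : f ∈ S.dom),
          S.map ⟨f, hS⟩ = 0 ↔ f = 0 ∨ 1 ≤ (E.placeOf S.dom S.trivOn hne).ord f := by
      intro S hne _ b f _ hS
      rw [S.map_eq_zero]
      exact Place.not_isUnit_iff (E.placeOf S.dom S.trivOn hne) hS
    have hQinf : ∀ (S : Spec K (C.curve K) L') (hne : S.dom ≠ ⊤),
        (∀ b : ℕ, ∀ f ∈ riemannRochSpace (C.binf K (b : ℤ)), f ∈ S.dom) →
        E.placeOf S.dom S.trivOn hne ≠ C.inf K := by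
      intro S hne hS e
      obtain ⟨f, hf, hf0, hford⟩ := exists_exact (C := C) (b := 2 * C.g + 2) (by omega)
      have h := (mem_valuationSubring_iff_ord.1
        ((congrArg (fun Q : Place K (C.curve K) => f ∈ Q.toValuationSubring) e).mp
          (hS _ f hf))).resolve_left hf0
      omega
    have hkill : ∀ (S : Spec K (C.curve K) L') (hne : S.dom ≠ ⊤),
        (∀ b : ℕ, ∀ f ∈ riemannRochSpace (C.binf K (b : ℤ)), f ∈ S.dom) →
        ∀ Q : Place K (C.curve K), Q ≠ E.placeOf S.dom S.trivOn hne → Q ≠ C.inf K →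
        ∃ (b : ℕ) (f : C.curve K), ∃ _ : f ∈ riemannRochSpace (C.binf K (b : ℤ)), ∃ hS : f ∈ S.dom,
          f ≠ 0 ∧ S.map ⟨f, hS⟩ = 0 ∧ ¬ 1 ≤ Q.ord f := by
      intro S hne hS Q hQ hQi
      set R := E.placeOf S.dom S.trivOn hne
      set b := 2 * C.g + 3
      obtain ⟨f, hf, hf'⟩ := SetLike.not_le_iff_exists.1
        ((C.rr K).Lsp_sub_single_ne (C.binf K (b : ℤ) - Finsupp.single R 1) Q
          (by rw [C.rr_g, map_sub, C.deg_binf, (C.rr K).degree_single]; omega))
      have hf0 : f ≠ 0 := fun e => hf' (e ▸ zero_mem _)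
      have hfb : f ∈ riemannRochSpace (C.binf K (b : ℤ)) :=
        C.Lsp_le_binf (Finsupp.single_nonneg.2 zero_le_one) hf
      refine ⟨b, f, hfb, hS b f hfb, hf0, ?_, fun h => hf' ?_⟩
      · rw [hker S hne (hQinf S hne hS) b f hfb]
        right
        have h := (mem_Lsp_of_ne_zero hf0).1 hf R
        rw [Finsupp.sub_apply, CurveData.binf, Finsupp.single_eq_same,
          Finsupp.single_eq_of_ne (hQinf S hne hS), zero_sub, neg_neg] at h
        exact h
      · rw [mem_Lsp_of_ne_zero hf0]
        intro v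
        rw [Finsupp.sub_apply]
        rcases eq_or_ne v Q with rfl | hv
        · rw [Finsupp.single_eq_same, Finsupp.sub_apply, CurveData.binf,
            Finsupp.single_eq_of_ne hQi, Finsupp.single_eq_of_ne hQ]
          omega
        · rw [Finsupp.single_eq_of_ne hv, sub_zero]
          exact (mem_Lsp_of_ne_zero hf0).1 hf v
    have hregA : ∀ b : ℕ, ∀ f ∈ riemannRochSpace (C.binf K (b : ℤ)), f ∈ A.dom := hpole
    have htop : ∀ (S T : Spec K (C.curve K) L'),
        (∀ b : ℕ, ∀ f ∈ riemannRochSpace (C.binf K (b : ℤ)), f ∈ S.dom) →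
        (∀ b : ℕ, ∀ f ∈ riemannRochSpace (C.binf K (b : ℤ)), f ∈ T.dom) →
        (∀ b : ℕ, ∀ f ∈ riemannRochSpace (C.binf K (b : ℤ)), ∀ (hS : f ∈ S.dom) (hT : f ∈ T.dom),
          S.map ⟨f, hS⟩ = T.map ⟨f, hT⟩) →
        S.dom = ⊤ → T.dom = ⊤ := by
      intro S T hS hT hST hSt
      by_contra hne
      obtain ⟨i, hi⟩ : ∃ i, C.pt K i ≠ E.placeOf T.dom T.trivOn hne := by
        by_contra! h
        exact zero_ne_one (C.pt_injective K ((h 0).trans (h 1).symm))
      obtain ⟨b, f, hf, hfT, hf0, h0, -⟩ := hkill T hne hT _ hi (C.pt_ne_inf K i)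
      refine (S.map_eq_zero _).1 ((hST b f hf (hS b f hf) hfT).trans h0) ?_
      exact isUnit_iff_exists_inv.2 ⟨⟨f⁻¹, hSt ▸ ValuationSubring.mem_top _⟩,
        Subtype.ext (mul_inv_cancel₀ hf0)⟩
    have hdom : A.dom = B.dom := by
      by_cases hAt : A.dom = ⊤
      · rw [hAt, htop A B hregA hreg hval hAt]
      have hBt : B.dom ≠ ⊤ := fun e =>
        hAt (htop B A hreg hregA (fun b f hf h1 h2 => (hval b f hf h2 h1).symm) e)
      by_contra hne
      obtain ⟨b, f, hf, hfA, hf0, h0, h1⟩ := hkill A hAt hregA (E.placeOf B.dom B.trivOn hBt)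
        (fun e => hne (congrArg Place.toValuationSubring e).symm) (hQinf B hBt hreg)
      rw [hval b f hf hfA (hreg b f hf), hker B hBt (hQinf B hBt hreg) b f hf] at h0
      exact h1 (h0.resolve_left hf0)
    refine spec_ext hdom fun x hxA hxB => ?_
    by_cases hAt : A.dom = ⊤
    · obtain ⟨b, u, w, hu, hw, hu0, huw⟩ := exists_quot (C := C) x
      have hne0 : A.map ⟨u, hregA b u hu⟩ ≠ 0 := by
        rw [Spec.map_ne_zero_iff]
        exact isUnit_iff_exists_inv.2 ⟨⟨u⁻¹, hAt ▸ ValuationSubring.mem_top _⟩,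
          Subtype.ext (mul_inv_cancel₀ hu0)⟩
      refine mul_right_cancel₀ hne0 ?_
      conv_rhs => rw [hval b u hu _ (hreg b u hu)]
      rw [← map_mul, ← map_mul]
      have eA : (⟨x, hxA⟩ * ⟨u, hregA b u hu⟩ : A.dom) = ⟨w, hregA b w hw⟩ := Subtype.ext huw
      have eB : (⟨x, hxB⟩ * ⟨u, hreg b u hu⟩ : B.dom) = ⟨w, hreg b w hw⟩ := Subtype.ext huw
      rw [eA, eB, hval b w hw]
    · obtain ⟨c, hc⟩ := constResidue_place
        ((C.rr K).deg_one (E.placeOf A.dom A.trivOn hAt)) ⟨x, hxA⟩
      rw [Spec.map_eq_const A hxA (c := c) hc]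
      refine (Spec.map_eq_const B hxB (c := c) fun hu => hc ?_).symm
      obtain ⟨y, hy⟩ := isUnit_iff_exists_inv.1 hu
      exact isUnit_iff_exists_inv.2 ⟨⟨y, (SetLike.ext_iff.1 hdom _).2 y.2⟩, Subtype.ext
          (congrArg Subtype.val hy :)⟩

end CurveBase

end Fermat.Agent.AV

end
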