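import Fermat.Agent.AV.Abel.Center

/-!
# The place of the curve given by a point with values in `L`

An embedding of the function field over `K` into an algebraically closed field `L` is the centre
of a place over `L`: the kernels of evaluation in the levels are cut out by one place.
-/

set_option autoImplicit false

noncomputable section

open AlgebraicCurve Module Fermat.Agent.MWJ0 Fermat.Agent.Row27

namespace Fermat.Agent.AV

universe u

namespace CurveBase

variable {K : Type u} [Field K] [IsAlgClosed K] {C : CurveData K} (E : CurveBase C)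
variable {L : Type u} [Field L] [Algebra K L] [IsAlgClosed L] (σ : C.curve K →ₐ[K] L)

/-- Evaluation of coordinates at `σ`. -/
def evalVec (b : ℕ) : (C.Idx b → L) →ₗ[L] L :=
  Fintype.linearCombination L fun j => σ (C.realF K b (Pi.single j 1))

omit [IsAlgClosed L] in
lemma evalVec_apply (b : ℕ) (x : C.Idx b → L) :
    evalVec σ b x = ∑ j, x j * σ (C.realF K b (Pi.single j 1)) := rfl

omit [IsAlgClosed L] in
lemma evalVec_algebraMap (b : ℕ) (x : C.Idx b → K) :
    evalVec σ b (fun i => algebraMap K L (x i)) = σ (C.realF K b x) := by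
  conv_rhs => rw [pi_eq_sum_univ' x, map_sum, map_sum]
  rw [evalVec_apply]
  exact Finset.sum_congr rfl fun j _ => by rw [map_smul, map_smul, Algebra.smul_def]

omit [IsAlgClosed L] in
lemma evalVec_oneV (b : ℕ) : evalVec σ b (C.oneV L b) = 1 := by
  have h := evalVec_algebraMap σ b (C.one b)
  rw [show C.realF K b (C.one b) = 1 from C.realF_one K b, map_one] at h
  exact h

omit [IsAlgClosed L] in
lemma evalVec_mulv {a b c : ℕ} (h : a + b ≤ c) (x : C.Idx a → L) (y : C.Idx b → L) :
    evalVec σ c (C.mulv a b c x y) = evalVec σ a x * evalVec σ b y := by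
  classical
  have hsc : ∀ i j, C.realF K c (C.sc a b c i j) =
      C.realF K a (Pi.single i 1) * C.realF K b (Pi.single j 1) := fun i j => by
    rw [← C.realF_mul K a b c h]
    congr 1
    funext l
    simp [mulVec, Pi.single_apply]
  have e : C.mulv a b c x y =
      ∑ i, ∑ j, (x i * y j) • fun l => algebraMap K L (C.sc a b c i j l) := funext fun l => by
    simp [CurveData.mulv, mulVec, Algebra.smul_def, Finset.sum_apply, mul_comm]
  rw [e]
  simp only [map_sum, map_smul, smul_eq_mul]
  simp only [evalVec_algebraMap, hsc, map_mul]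
  rw [evalVec_apply, evalVec_apply, Finset.sum_mul_sum]
  exact Finset.sum_congr rfl fun i _ => Finset.sum_congr rfl fun j _ => by ring

omit [IsAlgClosed L] in
lemma finrank_ker_evalVec (b : ℕ) :
    finrank L (LinearMap.ker (evalVec σ b)) + 1 = C.dim b := by
  have h := (evalVec σ b).finrank_range_add_finrank_ker
  rw [LinearMap.range_eq_top.2 fun a => ⟨a • C.oneV L b, by
    rw [map_smul, evalVec_oneV, smul_eq_mul, mul_one]⟩, finrank_top, finrank_self,
    Module.finrank_fin_fun] at h
  omega

lemma exists_place_pair {b c : ℕ} (hb : 2 * C.g + 1 < b) (hc : b + 2 * C.g ≤ c) :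
    ∃ Q : Place L (C.curve L), LinearMap.ker (evalVec σ b) = C.W L b (Finsupp.single Q 1) ∧
      LinearMap.ker (evalVec σ (b + c)) = C.W L (b + c) (Finsupp.single Q 1) := by
  have hbc : C.binf L (b : ℤ) + C.binf L (c : ℤ) = C.binf L ((b + c : ℕ) : ℤ) := by
    simp [CurveData.binf]
  have hrk : ∀ m : ℕ, 2 * C.g ≤ m →
      (finrank L ((LinearMap.ker (evalVec σ m)).map (C.realF L m)) : ℤ) = (m : ℤ) - C.g := by
    intro m hm
    rw [← (Submodule.equivMapOfInjective _ (C.realF_injective L m) _).finrank_eq]
    have h1 := finrank_ker_evalVec σ m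
    have h2 := C.finrank_W (L := L) (b := m) (D := 0) le_rfl (m := 0) (by simp) (by omega)
    rw [C.W_zero, finrank_top, Module.finrank_fin_fun] at h2
    rw [h2] at h1
    show ((finrank L (LinearMap.ker (evalVec σ m)) : ℕ) : ℤ) = _
    omega
  obtain ⟨D', hD', hd', h1, h2⟩ := (C.rr L).exists_divisor_of_mul_le
    (A := C.binf L (b : ℤ)) (C := C.binf L (c : ℤ)) (n := 1)
    (W := (LinearMap.ker (evalVec σ b)).map (C.realF L b))
    (W' := (LinearMap.ker (evalVec σ (b + c))).map (C.realF L (b + c)))
    (LinearMap.map_le_range.trans (C.range_realF L b).le)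
    (LinearMap.map_le_range.trans ((C.range_realF L (b + c)).le.trans
      (le_of_eq (by rw [hbc]; rfl))))
    (Submodule.mul_le.2 fun _ ⟨x, hx, e⟩ g hg => by
      obtain ⟨y, rfl⟩ := C.exists_realF_eq hg
      subst e
      refine ⟨C.mulv b c (b + c) x y, ?_, C.realF_mulv le_rfl x y⟩
      show evalVec σ (b + c) _ = 0
      rw [evalVec_mulv σ le_rfl, show evalVec σ b x = 0 from hx, zero_mul])
    (by rw [C.rr_g, C.deg_binf]; omega) (by rw [C.rr_g, C.deg_binf, C.deg_binf]; omega)
    (by rw [hrk b (by omega), C.rr_g, C.deg_binf]; push_cast; omega)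
    (by rw [hrk (b + c) (by omega), C.rr_g, C.deg_binf, C.deg_binf]; push_cast; omega)
  obtain ⟨Q, rfl⟩ := C.exists_single hD' (by simpa using hd')
  exact ⟨Q, Submodule.map_injective_of_injective (C.realF_injective L b)
      (h1.trans (C.map_W hD').symm),
    Submodule.map_injective_of_injective (C.realF_injective L (b + c))
      (h2.trans (by rw [hbc, C.map_W hD']))⟩

/-- **Every point with values in `L` is the centre of a place over `L`.** -/
theorem exists_pullSpec_eq : ∃ Q : Place L (C.curve L), E.pullSpec Q = Spec.ofAlgHom σ := by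
  set b₀ := 2 * C.g + 2
  obtain ⟨Q, hQ, -⟩ := exists_place_pair σ (b := b₀) (c := b₀ + 2 * C.g) (by omega) le_rfl
  refine ⟨Q, ?_⟩
  have hQi : Q ≠ C.inf L := by
    intro e
    have h1 : C.oneV L b₀ ∈ C.W L b₀ (Finsupp.single Q 1) := by
      rw [C.mem_W, C.realF_oneV (L := L) b₀, e, CurveData.binf, ← Finsupp.single_sub]
      exact C.one_mem_Lsp (Finsupp.single_nonneg.2 (by omega))
    rw [← hQ, LinearMap.mem_ker, evalVec_oneV] at h1
    exact one_ne_zero h1
  have hreg : ∀ (m : ℕ) (f : C.curve K) (hf : f ∈ riemannRochSpace (C.binf K (m : ℤ))),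
      (E.pullSpec Q).map ⟨f, E.mem_pullSpec_of_regular hQi hf⟩ = σ f := by
    intro m f hf
    set c := m + b₀ + 2 * C.g
    obtain ⟨Q', hQ', hQ''⟩ := exists_place_pair σ (b := b₀) (c := c) (by omega) (by omega)
    have eQ : Q' = Q := by
      refine Finsupp.single_left_injective one_ne_zero (C.W_injective (b := b₀)
        (Finsupp.single_nonneg.2 zero_le_one) (Finsupp.single_nonneg.2 zero_le_one) ?_ ?_
        (hQ'.symm.trans hQ))
      · rw [(C.rr L).degree_single, (C.rr L).degree_single]
      · rw [(C.rr L).degree_single]; omega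
    obtain ⟨x, hx⟩ := C.exists_realF_eq (regular_le (show m ≤ b₀ + c by omega) hf)
    subst eQ hx
    refine E.pullSpec_map_eq _ ?_
    have hk : (fun i => algebraMap K L (x i)) - σ (C.realF K (b₀ + c) x) • C.oneV L (b₀ + c) ∈
        C.W L (b₀ + c) (Finsupp.single Q' 1) := by
      rw [← hQ'', LinearMap.mem_ker, map_sub, map_smul, evalVec_algebraMap, evalVec_oneV,
        smul_eq_mul, mul_one, sub_self]
    rw [C.mem_W, map_sub, map_smul, C.realF_oneV (L := L), ← E.emb_realF,
      ← Algebra.algebraMap_eq_smul_one] at hk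
    refine (mem_Lsp.1 hk Q').imp_right fun h => ?_
    rw [Finsupp.sub_apply, CurveData.binf, Finsupp.single_eq_same,
      Finsupp.single_eq_of_ne hQi, zero_sub, neg_neg] at h
    exact h
  have key : ∀ f : C.curve K, ∃ hf : f ∈ (E.pullSpec Q).dom,
      (E.pullSpec Q).map ⟨f, hf⟩ = σ f := by
    intro f
    obtain ⟨b, u, w, hu, hw, hu0, huw⟩ := exists_quot f
    have h1 := hreg b u hu
    obtain ⟨y, hy⟩ := isUnit_iff_exists_inv.1 ((Spec.map_ne_zero_iff _ _).1
      (h1.symm ▸ (map_ne_zero σ).2 hu0 : (E.pullSpec Q).map _ ≠ 0))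
    have hy' : u * (y : C.curve K) = 1 := congrArg Subtype.val hy
    have hf : f ∈ (E.pullSpec Q).dom := by
      rw [show f = w * y by rw [← huw, mul_assoc, hy', mul_one]]
      exact mul_mem (E.mem_pullSpec_of_regular hQi hw) y.2
    refine ⟨hf, mul_right_cancel₀ ((map_ne_zero σ).2 hu0) ?_⟩
    rw [← map_mul σ, huw, ← hreg b w hw, ← h1, ← map_mul]
    exact congrArg _ (Subtype.ext huw)
  refine spec_ext (SetLike.ext fun f => iff_of_true (key f).1 (ValuationSubring.mem_top f)) ?_
  intro f hA _
  exact (key f).2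

end CurveBase

end Fermat.Agent.AV

end
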