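import Fermat.Agent.Row27.Interface
import Mathlib.FieldTheory.IntermediateField.Adjoin.Basic
import Mathlib.RingTheory.Algebraic.Integral
import Mathlib.FieldTheory.IsAlgClosed.AlgebraicClosure
import Fermat.Agent.AV.Instances

/-!
# Specialisations with rational residue field

A transcendental element takes every value at some specialisation, with values in the algebraic
closure of a residue field; a place of degree one gives a specialisation to the constants.
-/

set_option autoImplicit false

noncomputable section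

open Polynomial IntermediateField AlgebraicCurve
open scoped IntermediateField.algebraAdjoinAdjoin

namespace Fermat.Agent.AV

open Fermat.Agent.Row27

universe u

section Residues

variable {L M : Type u} [Field L] [Field M] [Algebra L M]

/-- The constants as a map into the valuation ring. -/
def constHom (V : ValuationSubring M) (h : TrivOn L V) : L →+* V :=
  (algebraMap L M).codRestrict V h

/-- Every element has its residue among the constants. -/
def ConstResidue (V : ValuationSubring M) (h : TrivOn L V) : Prop :=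
  ∀ x : V, ∃ c : L, ¬ IsUnit (x - constHom V h c)

variable {V : ValuationSubring M} {h : TrivOn L V}

lemma residue_const_bijective (hr : ConstResidue V h) :
    Function.Bijective ((IsLocalRing.residue V).comp (constHom V h)) := by
  refine ⟨RingHom.injective _, fun y => ?_⟩
  obtain ⟨x, rfl⟩ := IsLocalRing.residue_surjective y
  obtain ⟨c, hc⟩ := hr x
  refine ⟨c, ?_⟩
  have := (IsLocalRing.residue_eq_zero_iff (x - constHom V h c)).2
    ((IsLocalRing.mem_maximalIdeal _).2 hc)
  rw [map_sub, sub_eq_zero] at this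
  exact this.symm

/-- The residue in `L`. -/
def constRes (hr : ConstResidue V h) : V →+* L :=
  (RingEquiv.ofBijective _ (residue_const_bijective hr)).symm.toRingHom.comp
    (IsLocalRing.residue V)

lemma constRes_const (hr : ConstResidue V h) (c : L) : constRes hr (constHom V h c) = c :=
  (RingEquiv.ofBijective _ (residue_const_bijective hr)).symm_apply_apply c

lemma constRes_eq_zero (hr : ConstResidue V h) (x : V) : constRes hr x = 0 ↔ ¬ IsUnit x := by
  rw [← IsLocalRing.residue_ne_zero_iff_isUnit, not_not]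
  exact map_eq_zero_iff (RingEquiv.ofBijective _ (residue_const_bijective hr)).symm
    (RingEquiv.injective _)

end Residues

section Spec

variable {K : Type u} [Field K] {L M M' M'' : Type u} [Field L] [Algebra K L] [Field M]
    [Algebra K M]
  [Field M'] [Algebra K M'] [Field M''] [Algebra K M'']

/-- The same specialisation over a smaller field of constants. -/
def restrictSpec [Algebra L M] [Algebra L M'] [IsScalarTower K L M] [IsScalarTower K L M']
    (φ : Spec L M M') : Spec K M M' where
  dom := φ.dom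
  trivOn c := by
    rw [IsScalarTower.algebraMap_apply K L M]
    exact φ.trivOn _
  map := φ.map
  map_algebraMap c := by
    rw [IsScalarTower.algebraMap_apply K L M']
    convert φ.map_algebraMap (algebraMap K L c) using 3
    exact IsScalarTower.algebraMap_apply K L M c
  map_eq_zero := φ.map_eq_zero

lemma Spec.map_ne_zero_iff (φ : Spec K M M') (x : φ.dom) : φ.map x ≠ 0 ↔ IsUnit x := by
  rw [Ne, φ.map_eq_zero, not_not]

lemma Spec.not_mem_iff (φ : Spec K M M') {x : M} :
    x ∉ φ.dom ↔ x ≠ 0 ∧ ∃ h : x⁻¹ ∈ φ.dom, φ.map ⟨x⁻¹, h⟩ = 0 := by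
  constructor
  · intro hx
    have hx0 : x ≠ 0 := fun e => hx (e ▸ zero_mem _)
    have hi := (φ.dom.mem_or_inv_mem x).resolve_left hx
    refine ⟨hx0, hi, (φ.map_eq_zero _).2 fun hu => hx ?_⟩
    obtain ⟨y, hy⟩ := isUnit_iff_exists_inv.1 hu
    have hy' : x⁻¹ * (y : M) = 1 := congrArg Subtype.val hy
    rw [inv_mul_eq_one₀ hx0] at hy'
    exact hy' ▸ y.2
  · rintro ⟨hx0, hi, h0⟩ hx
    exact (φ.map_eq_zero _).1 h0 (isUnit_iff_exists_inv.2 ⟨⟨x, hx⟩,
      Subtype.ext (inv_mul_cancel₀ hx0)⟩)

/-- The composite of two specialisations. -/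
def specComp (φ : Spec K M M') (ψ : Spec K M' M'') : Spec K M M'' where
  dom :=
    { carrier := {x | ∃ h : x ∈ φ.dom, φ.map ⟨x, h⟩ ∈ ψ.dom}
      one_mem' := ⟨one_mem _, by
        show φ.map 1 ∈ ψ.dom
        rw [map_one]; exact one_mem _⟩
      zero_mem' := ⟨zero_mem _, by
        show φ.map 0 ∈ ψ.dom
        rw [map_zero]; exact zero_mem _⟩
      mul_mem' := fun {a b} ⟨ha, ha'⟩ ⟨hb, hb'⟩ => ⟨mul_mem ha hb, by
        show φ.map (⟨a, ha⟩ * ⟨b, hb⟩) ∈ ψ.dom
        rw [map_mul]; exact mul_mem ha' hb'⟩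
      add_mem' := fun {a b} ⟨ha, ha'⟩ ⟨hb, hb'⟩ => ⟨add_mem ha hb, by
        show φ.map (⟨a, ha⟩ + ⟨b, hb⟩) ∈ ψ.dom
        rw [map_add]; exact add_mem ha' hb'⟩
      neg_mem' := fun {a} ⟨ha, ha'⟩ => ⟨neg_mem ha, by
        show φ.map (-⟨a, ha⟩) ∈ ψ.dom
        rw [map_neg]; exact neg_mem ha'⟩
      mem_or_inv_mem' := fun x => by
        by_cases hx : x ∈ φ.dom
        · by_cases hm : φ.map ⟨x, hx⟩ ∈ ψ.dom
          · exact Or.inl ⟨hx, hm⟩
          have hu : IsUnit (⟨x, hx⟩ : φ.dom) := (Spec.map_ne_zero_iff φ _).1 fun e =>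
            hm (e ▸ zero_mem _)
          obtain ⟨y, hy⟩ := isUnit_iff_exists_inv.1 hu
          have hy' : x * (y : M) = 1 := congrArg Subtype.val hy
          have hinv : x⁻¹ = (y : M) := inv_eq_of_mul_eq_one_right hy'
          refine Or.inr ⟨hinv ▸ y.2, ?_⟩
          have e : (⟨x⁻¹, hinv ▸ y.2⟩ : φ.dom) = y := Subtype.ext hinv
          rw [e, ← inv_eq_of_mul_eq_one_right
            (a := φ.map ⟨x, hx⟩) (b := φ.map y) (by rw [← map_mul, hy, map_one])]
          exact (ψ.dom.mem_or_inv_mem _).resolve_left hm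
        · obtain ⟨-, hi, h0⟩ := (Spec.not_mem_iff φ).1 hx
          exact Or.inr ⟨hi, h0 ▸ zero_mem _⟩ }
  trivOn c := ⟨φ.trivOn c, by rw [φ.map_algebraMap]; exact ψ.trivOn c⟩
  map :=
    { toFun := fun x => ψ.map ⟨φ.map ⟨x.1, x.2.1⟩, x.2.2⟩
      map_one' := by
        refine Eq.trans (congrArg ψ.map ?_) (map_one _)
        exact Subtype.ext (map_one φ.map)
      map_zero' := by
        refine Eq.trans (congrArg ψ.map ?_) (map_zero _)
        exact Subtype.ext (map_zero φ.map)
      map_mul' := fun x y => by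
        rw [← map_mul]
        exact congrArg ψ.map (Subtype.ext (map_mul φ.map ⟨x.1, x.2.1⟩ ⟨y.1, y.2.1⟩))
      map_add' := fun x y => by
        rw [← map_add]
        exact congrArg ψ.map (Subtype.ext (map_add φ.map ⟨x.1, x.2.1⟩ ⟨y.1, y.2.1⟩)) }
  map_algebraMap c := by
    refine Eq.trans (congrArg ψ.map (Subtype.ext ?_)) (ψ.map_algebraMap c)
    exact φ.map_algebraMap c
  map_eq_zero x := by
    constructor
    · intro h0 hu
      refine (ψ.map_eq_zero _).1 h0 ?_
      obtain ⟨y, hy⟩ := isUnit_iff_exists_inv.1 hu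
      refine isUnit_iff_exists_inv.2 ⟨⟨φ.map ⟨y.1, y.2.1⟩, y.2.2⟩, Subtype.ext ?_⟩
      show φ.map ⟨x.1, x.2.1⟩ * φ.map ⟨y.1, y.2.1⟩ = 1
      refine (map_mul φ.map _ _).symm.trans (Eq.trans ?_ (map_one φ.map))
      exact congrArg φ.map (Subtype.ext (congrArg Subtype.val hy :))
    · intro hu
      by_contra h0
      refine hu ?_
      have h1 : IsUnit (⟨φ.map ⟨x.1, x.2.1⟩, x.2.2⟩ : ψ.dom) := (Spec.map_ne_zero_iff ψ _).1 h0
      obtain ⟨z, hz⟩ := isUnit_iff_exists_inv.1 h1
      have hz' : φ.map ⟨x.1, x.2.1⟩ * (z : M') = 1 := congrArg Subtype.val hz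
      obtain ⟨y, hy⟩ := isUnit_iff_exists_inv.1 ((Spec.map_ne_zero_iff φ ⟨x.1, x.2.1⟩).1
        fun e => by rw [e, zero_mul] at hz'; exact zero_ne_one hz')
      have hym : φ.map y = (z : M') := by
        rw [← inv_eq_of_mul_eq_one_right hz']
        exact (inv_eq_of_mul_eq_one_right (by rw [← map_mul, hy, map_one])).symm
      exact isUnit_iff_exists_inv.2 ⟨⟨y.1, y.2, hym ▸ z.2⟩,
        Subtype.ext (congrArg Subtype.val hy :)⟩

lemma mem_specComp {φ : Spec K M M'} {ψ : Spec K M' M''} {x : M} :
    x ∈ (specComp φ ψ).dom ↔ ∃ h : x ∈ φ.dom, φ.map ⟨x, h⟩ ∈ ψ.dom := Iff.rfl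

end Spec

section Existence

variable {L M : Type u} [Field L] [Field M] [Algebra L M]

/-- A transcendental element takes every value at some valuation ring over the constants. -/
lemma exists_valuation_sub {u : M} (hu : Transcendental L u) (a : L) :
    ∃ (V : ValuationSubring M) (h : TrivOn L V) (hu' : u ∈ V),
      ¬ IsUnit ((⟨u, hu'⟩ : V) - constHom V h a) := by
  set A := (Algebra.adjoin L ({u} : Set M)).toSubring
  have huA : u - algebraMap L M a ∈ A :=
    sub_mem (Algebra.self_mem_adjoin_singleton L u) (Subalgebra.algebraMap_mem _ a)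
  have hI : Ideal.span {(⟨_, huA⟩ : A)} ≠ ⊤ := by
    rw [Ne, Ideal.span_singleton_eq_top]
    intro hun
    obtain ⟨⟨b, hb⟩, hb'⟩ := isUnit_iff_exists_inv.1 hun
    have hub : (u - algebraMap L M a) * b = 1 := congrArg Subtype.val hb'
    have hb'' : b ∈ Algebra.adjoin L ({u} : Set M) := hb
    rw [Algebra.adjoin_singleton_eq_range_aeval] at hb''
    obtain ⟨p, rfl⟩ := hb''
    rw [AlgHom.toRingHom_eq_coe, AlgHom.coe_toRingHom] at hub
    have := transcendental_iff.1 hu ((X - C a) * p - 1) (by simp [hub])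
    simpa using congrArg (fun q : L[X] => q.eval a) this
  obtain ⟨V, hAV, hIV⟩ := Ideal.image_subset_nonunits_valuationSubring _ hI
  have h : TrivOn L V := fun c =>
    hAV (Subalgebra.algebraMap_mem _ c : algebraMap L M c ∈ Algebra.adjoin L ({u} : Set M))
  refine ⟨V, h, hAV (Algebra.self_mem_adjoin_singleton L u), ?_⟩
  obtain ⟨h1, h2⟩ := ValuationSubring.mem_nonunits_iff_exists_mem_maximalIdeal.1
    (hIV ⟨⟨_, huA⟩, Ideal.mem_span_singleton_self _, rfl⟩)
  exact (IsLocalRing.mem_maximalIdeal _).1 h2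

/-- A transcendental element takes every value at some specialisation. -/
theorem exists_spec_value {u : M} (hu : Transcendental L u) (a : L) :
    ∃ (M' : Type u) (_ : Field M') (_ : Algebra L M') (_ : IsAlgClosed M') (φ : Spec L M M'),
      ∃ h : u ∈ φ.dom, φ.map ⟨u, h⟩ = algebraMap L M' a := by
  obtain ⟨V, h, hu', hn⟩ := exists_valuation_sub hu a
  let : Algebra L (IsLocalRing.ResidueField V) :=
    ((IsLocalRing.residue V).comp (constHom V h)).toAlgebra
  let φ : Spec L M (AlgebraicClosure (IsLocalRing.ResidueField V)) :=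
    { dom := V
      trivOn := h
      map := (algebraMap (IsLocalRing.ResidueField V) _).comp (IsLocalRing.residue V)
      map_algebraMap := fun c => (IsScalarTower.algebraMap_apply L (IsLocalRing.ResidueField V)
        (AlgebraicClosure (IsLocalRing.ResidueField V)) c).symm
      map_eq_zero := fun x => by
        rw [RingHom.comp_apply, map_eq_zero, ← IsLocalRing.residue_ne_zero_iff_isUnit, not_not] }
  refine ⟨_, inferInstance, inferInstance, inferInstance, φ, hu', ?_⟩
  have h1 : IsLocalRing.residue V (⟨u, hu'⟩ - constHom V h a) = 0 :=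
    (IsLocalRing.residue_eq_zero_iff _).2 ((IsLocalRing.mem_maximalIdeal _).2 hn)
  rw [map_sub, sub_eq_zero] at h1
  exact (congrArg (algebraMap _ (AlgebraicClosure (IsLocalRing.ResidueField V))) h1).trans
    (φ.map_algebraMap a)

/-- A transcendental element has a pole at some specialisation. -/
theorem exists_spec_pole {u : M} (hu : Transcendental L u) :
    ∃ (M' : Type u) (_ : Field M') (_ : Algebra L M') (_ : IsAlgClosed M') (φ : Spec L M M'),
      u ∉ φ.dom := by
  obtain ⟨M', i1, i2, i3, φ, h, h0⟩ := exists_spec_value (u := u⁻¹)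
    (fun h' => hu (by simpa using h'.inv)) (0 : L)
  exact ⟨M', i1, i2, i3, φ, (Spec.not_mem_iff φ).2
    ⟨fun e => hu (e ▸ isAlgebraic_zero), h, h0.trans (map_zero _)⟩⟩

end Existence

section Place

variable {L G : Type u} [Field L] [Field G] [Algebra L G] {P : Place L G}

lemma constResidue_place (hP : P.deg = 1) :
    ConstResidue P.toValuationSubring (fun c : L => P.algebraMap_mem' c) := by
  intro x
  obtain ⟨c, hc⟩ := (finrank_eq_one_iff_of_nonzero' (K := L) (1 : P.ResidueField) one_ne_zero).1 hP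
    (IsLocalRing.residue _ x)
  refine ⟨c, fun hu => (IsLocalRing.residue_ne_zero_iff_isUnit _).2 hu ?_⟩
  rw [map_sub, ← hc, Algebra.smul_def, mul_one, IsScalarTower.algebraMap_apply L
      P.toValuationSubring
    P.ResidueField, IsLocalRing.ResidueField.algebraMap_eq]
  exact sub_eq_zero.2 (congrArg (IsLocalRing.residue _) (Subtype.ext rfl))

end Place

end Fermat.Agent.AV

end
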