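import Fermat.Agent.AV.Interface
import Fermat.Agent.AV.Abel.SpecFacts
import Mathlib.FieldTheory.RatFunc.Basic
import Mathlib.RingTheory.Algebraic.MvPolynomial

/-!
# A family of points over the projective line is constant

A family `y z`, `z ∈ ℙ¹`, compatible with every specialisation is constant: the point
`y (s t) - y s - y t + y 1` specialises to `0` at `t ↦ 1`, so it does not depend on `s`.
-/

set_option autoImplicit false

noncomputable section

open Fermat.Agent.Row27

namespace Fermat.Agent.AV

universe u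

variable {K : Type u} [Field K]

section SpecPt

variable {M M' : Type u} [Field M] [Algebra K M] [Field M'] [Algebra K M']

open Classical in
/-- The specialisation of a point of the line, `none` being infinity. -/
def specPt (φ : Spec K M M') : Option M → Option M'
  | none => none
  | some z => if h : z ∈ φ.dom then some (φ.map ⟨z, h⟩) else none

lemma specPt_none (φ : Spec K M M') : specPt φ none = none := rfl

lemma specPt_of_map {φ : Spec K M M'} {z : M} (h : z ∈ φ.dom) {a : M'} (e : φ.map ⟨z, h⟩ = a) :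
    specPt φ (some z) = some a := by
  rw [specPt, dif_pos h, e]

lemma specPt_of_not_mem {φ : Spec K M M'} {z : M} (h : z ∉ φ.dom) : specPt φ (some z) = none :=
  dif_neg h

lemma specPt_ofAlgHom (σ : M →ₐ[K] M') (z : M) :
    specPt (Spec.ofAlgHom σ) (some z) = some (σ z) :=
  specPt_of_map (ValuationSubring.mem_top z) rfl

lemma specPt_one (φ : Spec K M M') : specPt φ (some 1) = some 1 :=
  specPt_of_map (one_mem _) (map_one φ.map)

/-- A factor with nonzero finite value does not move a pole. -/
lemma not_mem_mul {φ : Spec K M M'} {z w : M} (hw : w ∈ φ.dom) (h0 : φ.map ⟨w, hw⟩ ≠ 0)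
    (hz : z ∉ φ.dom) : z * w ∉ φ.dom := by
  intro h
  obtain ⟨y, hy⟩ := isUnit_iff_exists_inv.1 ((Spec.map_ne_zero_iff φ _).1 h0)
  have hy' : w * (y : M) = 1 := congrArg Subtype.val hy
  refine hz ?_
  rw [show z = z * w * y by rw [mul_assoc, hy', mul_one]]
  exact mul_mem h y.2

lemma specPt_mul_of_eq_one {φ : Spec K M M'} {z w : M} (hw : w ∈ φ.dom)
    (h1 : φ.map ⟨w, hw⟩ = 1) : specPt φ (some (z * w)) = specPt φ (some z) := by
  by_cases hz : z ∈ φ.dom
  · refine (specPt_of_map (mul_mem hz hw) ?_).trans (specPt_of_map hz rfl).symm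
    rw [show (⟨z * w, mul_mem hz hw⟩ : φ.dom) = ⟨z, hz⟩ * ⟨w, hw⟩ from rfl, map_mul, h1, mul_one]
  · rw [specPt_of_not_mem hz, specPt_of_not_mem (not_mem_mul hw (by rw [h1]; exact one_ne_zero) hz)]

end SpecPt

variable (D : AVData K)

lemma AVData.red_red {L L' L'' : Type u} [Field L] [Algebra K L] [Field L'] [Algebra K L']
    [Field L''] [Algebra K L''] (φ : Spec K L L') (ψ : Spec K L' L'') (x : D.Pt L) :
    D.red ψ (D.red φ x) = D.red (specComp φ ψ) x :=
  D.red_trans φ ψ _ (fun z => by
    obtain ⟨h, h'⟩ := mem_specComp.1 z.2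
    exact ⟨h, h', rfl⟩) x

variable (L : Type u) [Field L] [Algebra K L] [IsAlgClosed L]

/-- A family of points over the line, compatible with all specialisations over `L`. -/
structure LineFamily where
  y : ∀ (M : Type u) [Field M] [Algebra K M] [IsAlgClosed M], (L →ₐ[K] M) → Option M → D.Pt M
  red_y : ∀ {M M' : Type u} [Field M] [Algebra K M] [IsAlgClosed M] [Field M'] [Algebra K M']
    [IsAlgClosed M'] (φ : Spec K M M') (ψ : L →ₐ[K] M) (ψ' : L →ₐ[K] M') (h : ∀ l, ψ l ∈ φ.dom),
    (∀ l, φ.map ⟨ψ l, h l⟩ = ψ' l) → ∀ z, D.red φ (y M ψ z) = y M' ψ' (specPt φ z)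

variable {D L}

/-- The transcendental of a field of functions. -/
lemma transcendental_X (F : Type u) [Field F] :
    Transcendental F (algebraMap (RatFunc F) (AlgebraicClosure (RatFunc F)) RatFunc.X) := by
  intro h
  refine RatFunc.transcendental_X (K := F) ?_
  exact (isAlgebraic_algebraMap_iff (algebraMap (RatFunc F) _).injective).1 h

namespace LineFamily

variable (Y : LineFamily D L)

omit [IsAlgClosed L] in
lemma map_y {M M' : Type u} [Field M] [Algebra K M] [IsAlgClosed M] [Field M'] [Algebra K M']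
    [IsAlgClosed M'] (σ : M →ₐ[K] M') (ψ : L →ₐ[K] M) (z : Option M) :
    D.map σ (Y.y M ψ z) = Y.y M' (σ.comp ψ) (specPt (Spec.ofAlgHom σ) z) :=
  Y.red_y (Spec.ofAlgHom σ) ψ (σ.comp ψ) (fun _ => ValuationSubring.mem_top _) (fun _ => rfl) z

omit [IsAlgClosed L] in
/-- The value at a transcendental point is the value at `1`. -/
lemma y_eq_one_of_transcendental {M : Type u} [Field M] [Algebra K M] [IsAlgClosed M]
    (ψ₁ : L →ₐ[K] M) (t : M)
    (ht : letI := ψ₁.toRingHom.toAlgebra; Transcendental L t) :
    Y.y M ψ₁ (some t) = Y.y M ψ₁ (some 1) := by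
  let : Algebra L M := ψ₁.toRingHom.toAlgebra
  have : IsScalarTower K L M := IsScalarTower.of_algebraMap_eq fun c => (ψ₁.commutes c).symm
  have ht0 : t ≠ 0 := fun e => ht (e ▸ isAlgebraic_zero)
  set F := AlgebraicClosure (RatFunc M)
  set ψ₂ : M →ₐ[K] F := IsScalarTower.toAlgHom K M F
  set s : F := algebraMap (RatFunc M) F RatFunc.X
  have hs : Transcendental M s := transcendental_X M
  set ψ := ψ₂.comp ψ₁
  set T : F := ψ₂ t
  set h := Y.y F ψ (some (s * T)) - Y.y F ψ (some s) - Y.y F ψ (some T) + Y.y F ψ (some 1)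
  -- every specialisation specialises further to zero
  have hrig : D.defField h ≤ ψ₂.fieldRange := by
    refine D.rigid ψ₂ h fun L' _ _ φ hφ => ?_
    set N := AlgebraicClosure L'
    let τ : M →+* N := (algebraMap L' N).comp (φ.map.comp (ψ₂.toRingHom.codRestrict φ.dom hφ))
    let : Algebra L N := (τ.comp (algebraMap L M)).toAlgebra
    have : IsScalarTower K L N := IsScalarTower.of_algebraMap_eq fun c => by
      show algebraMap K N c = τ (algebraMap L M (algebraMap K L c))
      rw [← IsScalarTower.algebraMap_apply K L M, IsScalarTower.algebraMap_apply K L' N]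
      refine congrArg (algebraMap L' N) ?_
      rw [← φ.map_algebraMap c]
      exact congrArg φ.map (Subtype.ext (ψ₂.commutes c).symm)
    let τ' : M →ₐ[L] N := { τ with commutes' := fun _ => rfl }
    have hτ : Transcendental L (τ' t) := fun e => ht ((isAlgebraic_algHom_iff τ' τ.injective).1 e)
    obtain ⟨L'', i1, i2, i3, φv, hv, hv1⟩ := exists_spec_value hτ (1 : L)
    let : Algebra K L'' := ((algebraMap L L'').comp (algebraMap K L)).toAlgebra
    have : IsScalarTower K L L'' := IsScalarTower.of_algebraMap_eq fun _ => rfl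
    let φ' : Spec K L' L'' :=
      specComp (Spec.ofAlgHom (IsScalarTower.toAlgHom K L' N)) (restrictSpec (K := K) φv)
    refine ⟨L'', i1, inferInstance, φ', ?_⟩
    rw [D.red_red]
    set χ := specComp φ φ'
    have hψ : ∀ l, ψ l ∈ χ.dom := fun l => ⟨hφ _, ValuationSubring.mem_top _, φv.trivOn l⟩
    have hψ' : ∀ l, χ.map ⟨ψ l, hψ l⟩ = IsScalarTower.toAlgHom K L L'' l :=
      fun l => φv.map_algebraMap l
    have hT : T ∈ χ.dom := ⟨hφ t, ValuationSubring.mem_top _, hv⟩
    have hT1 : χ.map ⟨T, hT⟩ = 1 := hv1.trans (map_one _)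
    simp only [h, map_sub, map_add, Y.red_y χ ψ _ hψ hψ', specPt_mul_of_eq_one hT hT1,
      specPt_one, specPt_of_map hT hT1]
    abel
  obtain ⟨h₀, hh₀⟩ := D.exists_map_eq ψ₂ h hrig
  -- specialisations over `M`
  have key : ∀ (M' : Type u) [Field M'] [Algebra K M'] [IsAlgClosed M'] [Algebra M M']
      [IsScalarTower K M M'] (φ : Spec M F M'),
      D.map (IsScalarTower.toAlgHom K M M') h₀ =
        Y.y M' ((IsScalarTower.toAlgHom K M M').comp ψ₁)
            (specPt (restrictSpec (K := K) φ) (some (s * T))) -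
        Y.y M' ((IsScalarTower.toAlgHom K M M').comp ψ₁) (specPt (restrictSpec (K := K) φ) (some s))
            -
        Y.y M' ((IsScalarTower.toAlgHom K M M').comp ψ₁) (some (algebraMap M M' t)) +
        Y.y M' ((IsScalarTower.toAlgHom K M M').comp ψ₁) (some 1) := by
    intro M' _ _ _ _ _ φ
    have e : D.red (restrictSpec (K := K) φ) h = D.map (IsScalarTower.toAlgHom K M M') h₀ := by
      rw [← hh₀]
      exact D.red_trans _ _ _ (fun z => ⟨ValuationSubring.mem_top _,
        φ.trivOn z.1, φ.map_algebraMap z.1⟩) h₀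
    have hT : specPt (restrictSpec (K := K) φ : Spec K F M') (some T) = some (algebraMap M M' t) :=
      specPt_of_map (φ.trivOn t) (φ.map_algebraMap t)
    rw [← e]
    simp only [h, map_sub, map_add, Y.red_y (restrictSpec (K := K) φ) ψ
      ((IsScalarTower.toAlgHom K M M').comp ψ₁) (fun l => φ.trivOn _)
      (fun l => φ.map_algebraMap _), hT, specPt_one]
  have h0 : h₀ = 0 := by
    obtain ⟨M', i1, i2, i3, φ, hsd, hs1⟩ := exists_spec_value hs (1 : M)
    let : Algebra K M' := ((algebraMap M M').comp (algebraMap K M)).toAlgebra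
    have : IsScalarTower K M M' := IsScalarTower.of_algebraMap_eq fun _ => rfl
    refine D.red_ofAlgHom_injective (IsScalarTower.toAlgHom K M M') ?_
    have e1 : specPt (restrictSpec (K := K) φ : Spec K F M') (some s) = some 1 :=
      specPt_of_map hsd (hs1.trans (map_one _))
    have e2 : specPt (restrictSpec (K := K) φ : Spec K F M') (some (s * T)) = some
        (algebraMap M M' t) := by
      refine specPt_of_map (mul_mem hsd (φ.trivOn t)) ?_
      show φ.map (⟨s, hsd⟩ * ⟨T, φ.trivOn t⟩) = _
      rw [map_mul, hs1, map_one, one_mul]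
      exact φ.map_algebraMap t
    refine (key M' φ).trans ?_
    rw [e1, e2, map_zero]
    abel
  obtain ⟨M', i1, i2, i3, φ, hp⟩ := exists_spec_pole hs
  let : Algebra K M' := ((algebraMap M M').comp (algebraMap K M)).toAlgebra
  have : IsScalarTower K M M' := IsScalarTower.of_algebraMap_eq fun _ => rfl
  have e1 : specPt (restrictSpec (K := K) φ : Spec K F M') (some s) = none := specPt_of_not_mem hp
  have e2 : specPt (restrictSpec (K := K) φ : Spec K F M') (some (s * T)) = none :=
    specPt_of_not_mem (not_mem_mul (φ := restrictSpec (K := K) φ) (φ.trivOn t) (fun e => ht0 (by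
      have e' := (φ.map_algebraMap t).symm.trans e
      simpa using e')) hp)
  have hk := key M' φ
  rw [h0, map_zero, e1, e2] at hk
  refine D.red_ofAlgHom_injective (IsScalarTower.toAlgHom K M M') ?_
  rw [Y.map_y, Y.map_y, specPt_ofAlgHom, specPt_one]
  exact (sub_eq_zero.1 (by rw [hk]; abel)).symm

/-- **A family over the line is constant.** -/
theorem y_eq (a : L) :
    Y.y L (AlgHom.id K L) (some a) = Y.y L (AlgHom.id K L) none := by
  set M := AlgebraicClosure (RatFunc L)
  set t : M := algebraMap (RatFunc L) M RatFunc.X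
  set ψ₁ : L →ₐ[K] M := IsScalarTower.toAlgHom K L M
  have key : Y.y M ψ₁ (some t) = Y.y M ψ₁ (some 1) := by
    refine Y.y_eq_one_of_transcendental ψ₁ t ?_
    convert transcendental_X L using 1
    exact Algebra.algebra_ext _ _ fun _ => rfl
  have hspec : ∀ (M' : Type u) [Field M'] [Algebra K M'] [IsAlgClosed M'] [Algebra L M']
      [IsScalarTower K L M'] (φ : Spec L M M'),
      Y.y M' (IsScalarTower.toAlgHom K L M') (specPt (restrictSpec (K := K) φ) (some t)) =
        Y.y M' (IsScalarTower.toAlgHom K L M') (some 1) := by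
    intro M' _ _ _ _ _ φ
    have hr : ∀ z, D.red (restrictSpec (K := K) φ) (Y.y M ψ₁ z) =
        Y.y M' (IsScalarTower.toAlgHom K L M') (specPt (restrictSpec (K := K) φ) z) :=
      Y.red_y (restrictSpec (K := K) φ : Spec K M M') ψ₁ (IsScalarTower.toAlgHom K L M') φ.trivOn
        φ.map_algebraMap
    rw [← hr, key, hr, specPt_one]
  have ht : Transcendental L t := transcendental_X L
  have ha : Y.y L (AlgHom.id K L) (some a) = Y.y L (AlgHom.id K L) (some 1) := by
    obtain ⟨M', i1, i2, i3, φ, h, h'⟩ := exists_spec_value ht a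
    let : Algebra K M' := ((algebraMap L M').comp (algebraMap K L)).toAlgebra
    have : IsScalarTower K L M' := IsScalarTower.of_algebraMap_eq fun _ => rfl
    refine D.red_ofAlgHom_injective (IsScalarTower.toAlgHom K L M') ?_
    rw [Y.map_y, Y.map_y, specPt_ofAlgHom, specPt_one, AlgHom.comp_id,
      ← hspec M' φ, specPt_of_map (φ := restrictSpec (K := K) φ) h h']
    rfl
  obtain ⟨M', i1, i2, i3, φ, h⟩ := exists_spec_pole ht
  let : Algebra K M' := ((algebraMap L M').comp (algebraMap K L)).toAlgebra
  have : IsScalarTower K L M' := IsScalarTower.of_algebraMap_eq fun _ => rfl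
  rw [ha]
  refine D.red_ofAlgHom_injective (IsScalarTower.toAlgHom K L M') ?_
  rw [Y.map_y, Y.map_y, specPt_none, specPt_one, AlgHom.comp_id,
    ← hspec M' φ, specPt_of_not_mem (φ := restrictSpec (K := K) φ) h]

end LineFamily

end Fermat.Agent.AV

end
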