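import Fermat.Agent.AV.Abel.Center
import Fermat.Agent.AV.Abel.Rigid

/-!
# The sum of a divisor class

A point of an abelian variety with values in the function field of a curve, which is `0` at
infinity, gives a value at every place over every `L`; the sum of the values along a divisor only
depends on the class, because the values along the fibres of a function form a family over the
line.
-/

set_option autoImplicit false

noncomputable section

open AlgebraicCurve Module Fermat.Agent.MWJ0 Fermat.Agent.Row27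

namespace Fermat.Agent.AV

universe u

variable {K : Type u} [Field K] [IsAlgClosed K]

/-- A point over the function field of a curve which is `0` at infinity. -/
structure CurvePt (D : AVData K) (C : CurveData K) where
  base : CurveBase C
  c : D.Pt (C.curve K)
  red_inf : ∀ φ : Spec K (C.curve K) K, φ.dom = (C.inf K).toValuationSubring → D.red φ c = 0

namespace CurvePt

variable {D : AVData K} {C : CurveData K} (X : CurvePt D C)
variable {L L' : Type u} [Field L] [Algebra K L] [IsAlgClosed L] [Field L'] [Algebra K L']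
  [IsAlgClosed L']

/-- The value at a place. -/
def val (P : Place L (C.curve L)) : D.Pt L := D.red (X.base.pullSpec P) X.c

lemma red_val (φ : Spec K L L') (P : Place L (C.curve L)) :
    D.red φ (X.val P) = X.val ((specTheory C).place φ P) := by
  rw [val, D.red_red, X.base.pullSpec_comp]
  rfl

lemma val_inf : X.val (C.inf L) = 0 := by
  have hK : ∀ Q : Place K (C.curve K), Q = C.inf K → X.val Q = 0 := fun Q hQ => by
    subst hQ
    exact X.red_inf _ (SetLike.ext fun f => X.base.mem_pullSpec_inf)
  have h := X.red_val (Spec.ofAlgHom (Algebra.ofId K L)) (C.inf K)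
  rw [(specTheory C).place_inf, hK _ rfl, map_zero] at h
  exact h.symm

/-- The sum along a divisor. -/
def dval : Divisor L (C.curve L) →+ D.Pt L :=
  Finsupp.liftAddHom fun P => zmultiplesHom _ (X.val P)

lemma dval_single (P : Place L (C.curve L)) (n : ℤ) :
    X.dval (Finsupp.single P n) = n • X.val P := by
  simp [dval]

lemma dval_binf (b : ℤ) : X.dval (C.binf L b) = 0 := by
  rw [CurveData.binf, X.dval_single, X.val_inf, smul_zero]

lemma red_dval (φ : Spec K L L') (E : Divisor L (C.curve L)) :
    D.red φ (X.dval E) = X.dval (Finsupp.mapDomain ((specTheory C).place φ) E) := by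
  induction E using Finsupp.induction_linear with
  | zero => simp
  | add E F hE hF => simp only [map_add, Finsupp.mapDomain_add, hE, hF]
  | single P n => rw [Finsupp.mapDomain_single, X.dval_single, X.dval_single, map_zsmul, X.red_val]

end CurvePt

section Sec

variable (C : CurveData K) {L L' : Type u} [Field L] [Algebra K L] [IsAlgClosed L] [Field L']
  [Algebra K L'] [IsAlgClosed L']

open Classical in
/-- The zero divisor of a function of level `b`. -/
def secDiv (b : ℕ) (v : C.Idx b → L) : Divisor L (C.curve L) :=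
  if h : C.realF L b v ≠ 0 then (C.rr L).divisor h + C.binf L b else 0

variable {C}

omit [IsAlgClosed K] in
lemma realF_ne_zero {b : ℕ} {v : C.Idx b → L} (h : v ≠ 0) : C.realF L b v ≠ 0 := fun e =>
  h (C.realF_injective L b (e.trans (map_zero _).symm))

omit [IsAlgClosed K] in
lemma secDiv_eq {b : ℕ} {v : C.Idx b → L} (h : v ≠ 0) :
    secDiv C b v = (C.rr L).divisor (realF_ne_zero h) + C.binf L b :=
  dif_pos (realF_ne_zero h)

omit [IsAlgClosed K] in
lemma secDiv_spec {b : ℕ} {v : C.Idx b → L} (h : v ≠ 0) :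
    0 ≤ secDiv C b v ∧ Divisor.degree (secDiv C b v) = b ∧ v ∈ C.W L b (secDiv C b v) := by
  rw [secDiv_eq h]
  obtain ⟨h1, h2⟩ := (C.rr L).section_divisor (realF_ne_zero h) (C.realF_mem b v)
  refine ⟨h1, by rw [h2, C.deg_binf], ?_⟩
  rw [C.mem_W, mem_Lsp_of_ne_zero (realF_ne_zero h)]
  intro w
  rw [Finsupp.sub_apply, Finsupp.add_apply, (C.rr L).divisor_apply]
  omega

omit [IsAlgClosed K] in
lemma secDiv_smul {b : ℕ} {v : C.Idx b → L} {t : L} (ht : t ≠ 0) (h : v ≠ 0) :
    secDiv C b (t • v) = secDiv C b v := by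
  rw [secDiv_eq h, secDiv_eq (smul_ne_zero ht h)]
  congr 1
  refine Finsupp.ext fun w => ?_
  rw [(C.rr L).divisor_apply, (C.rr L).divisor_apply, map_smul, Algebra.smul_def,
    w.ord_mul ((map_ne_zero _).2 ht) (realF_ne_zero h), C.ord_eq_zero_of_const ht, zero_add]

omit [IsAlgClosed K] in
/-- The zero divisor of an integral vector with nonzero reduction specialises to that of the
reduction. -/
lemma mapDomain_secDiv (φ : Spec K L L') {b : ℕ} (x : C.Idx b → φ.dom)
    (hx : (fun i => φ.map (x i)) ≠ 0) :
    Finsupp.mapDomain ((specTheory C).place φ) (secDiv C b fun i => (x i : L)) =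
      secDiv C b fun i => φ.map (x i) := by
  have hxL : (fun i => (x i : L)) ≠ 0 := fun e => hx (funext fun i => by
    rw [show x i = 0 from Subtype.ext (congrFun e i), map_zero]
    rfl)
  obtain ⟨hG, hGd, hxG⟩ := secDiv_spec hxL
  obtain ⟨hG', hGd', hxG'⟩ := secDiv_spec hx
  set G := secDiv C b fun i => (x i : L)
  set G' := secDiv C b fun i => φ.map (x i)
  set c := 2 * C.g + 1
  have hi : IsImg C φ G (Finsupp.mapDomain ((specTheory C).place φ) G) := isImg_mapDomain C φ hG
  have hS := hi.2.2 (b + c) (by rw [hGd]; omega)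
  let T := C.mulvLin (L := L') (a := b) (b := c) (c := b + c) le_rfl fun i => φ.map (x i)
  have hT : Function.Injective T := by
    refine (injective_iff_map_eq_zero T).2 fun y hy => C.realF_injective L' c ?_
    have h := congrArg (C.realF L' (b + c)) hy
    rw [C.mulvLin_apply, C.realF_mulv le_rfl, map_zero] at h
    rw [map_zero]
    exact (mul_eq_zero.1 h).resolve_left (realF_ne_zero hx)
  have hr : finrank L' (LinearMap.range T) = c + 1 - C.g := by
    have h1 := LinearMap.finrank_range_of_inj hT
    have h2 := C.finrank_W (L := L') (b := c) (D := 0) le_rfl (m := 0) (by simp) (by omega)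
    rw [C.W_zero, finrank_top] at h2
    omega
  have hr1 : LinearMap.range T = C.W L' (b + c) G' := by
    refine Submodule.eq_of_le_of_finrank_eq ?_ ?_
    · rintro _ ⟨y, rfl⟩
      have := C.mulv_mem_W rfl hxG'
        (show y ∈ C.W L' c 0 by rw [C.W_zero]; exact Submodule.mem_top)
      rwa [add_zero] at this
    · rw [hr, C.finrank_W hG' hGd' (by omega)]; omega
  have hr2 : LinearMap.range T = C.W L' (b + c) (Finsupp.mapDomain ((specTheory C).place φ) G) := by
    refine Submodule.eq_of_le_of_finrank_eq ?_ ?_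
    · rintro _ ⟨y, rfl⟩
      rw [← hS]
      refine C.mulv_mem_mapSub φ le_rfl (Wb := ⊤) (fun a ha z _ => ?_)
        (φ.mem_mapSub_of_mem x hxG) (by rw [φ.mapSub_top]; exact Submodule.mem_top)
      have := C.mulv_mem_W rfl ha (show z ∈ C.W L c 0 by rw [C.W_zero]; exact Submodule.mem_top)
      rwa [add_zero] at this
    · rw [hr, C.finrank_W hi.1 (hi.2.1.trans hGd) (by omega)]; omega
  exact C.W_injective hi.1 hG' ((hi.2.1.trans hGd).trans hGd'.symm) (b := b + c)
    (by rw [hi.2.1, hGd]; omega) (hr2.symm.trans hr1)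

omit [IsAlgClosed K] in
lemma oneV_ne_zero (b : ℕ) : C.oneV L b ≠ 0 := fun e =>
  one_ne_zero (α := C.curve L) (by rw [← C.realF_oneV (L := L) b, e, map_zero])

omit [IsAlgClosed K] in
lemma secDiv_oneV (b : ℕ) : secDiv C b (C.oneV L b) = C.binf L b := by
  rw [secDiv_eq (oneV_ne_zero b), add_eq_right]
  refine Finsupp.ext fun w => ?_
  rw [(C.rr L).divisor_apply, C.realF_oneV (L := L) b, Place.ord_one, Finsupp.zero_apply]

end Sec

namespace CurvePt

variable {D : AVData K} {C : CurveData K} (X : CurvePt D C)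
variable {L L' : Type u} [Field L] [Algebra K L] [IsAlgClosed L] [Field L'] [Algebra K L']
  [IsAlgClosed L']

/-- The values along the fibres of a function form a family over the line. -/
def lineFamily {b : ℕ} (x : C.Idx b → L) (hx : ∀ c : L, x ≠ c • C.oneV L b) : LineFamily D L where
  y M _ _ _ ψ z := z.elim 0 fun a => X.dval (secDiv C b ((fun i => ψ (x i)) - a • C.oneV M b))
  red_y {M M'} _ _ _ _ _ _ φ ψ ψ' h hψ z := by
    cases z with
    | none => simp [specPt]
    | some a =>
      have hne : ∀ {N : Type u} [Field N] [Algebra K N] (σ : L →ₐ[K] N) (a : N),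
          (fun i => σ (x i)) - a • C.oneV N b ≠ 0 := by
        intro N _ _ σ a e
        rw [sub_eq_zero] at e
        obtain ⟨i, hi⟩ := Function.ne_iff.1 (oneV_ne_zero (C := C) (L := L) b)
        refine hx (x i / C.oneV L b i) (funext fun j => σ.toRingHom.injective ?_)
        have h1 : ∀ j, σ (x j) = a * σ (C.oneV L b j) := fun j => by
          rw [congrFun e j]
          simp [CurveData.oneV, AlgHom.commutes]
        show σ (x j) = σ (x i / C.oneV L b i * C.oneV L b j)
        rw [map_mul, map_div₀, h1, h1]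
        have : σ (C.oneV L b i) ≠ 0 := (map_ne_zero σ).2 hi
        field_simp
      simp only [Option.elim]
      rw [X.red_dval]
      by_cases ha : a ∈ φ.dom
      · rw [specPt_of_map ha rfl]
        let v : C.Idx b → φ.dom := fun i =>
          ⟨ψ (x i), h _⟩ - ⟨a, ha⟩ * ⟨algebraMap K M (C.one b i), φ.trivOn _⟩
        have e : (fun i => φ.map (v i)) =
            (fun i => ψ' (x i)) - φ.map ⟨a, ha⟩ • C.oneV M' b := funext fun i => by
          rw [map_sub, map_mul, hψ, φ.map_algebraMap]
          rfl
        show X.dval _ = X.dval _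
        rw [← e]
        exact congrArg _ (mapDomain_secDiv φ v (e ▸ hne ψ' _))
      · rw [specPt_of_not_mem ha]
        obtain ⟨ha0, hi, hi0⟩ := (Spec.not_mem_iff φ).1 ha
        let v : C.Idx b → φ.dom := fun i =>
          ⟨a⁻¹, hi⟩ * ⟨ψ (x i), h _⟩ - ⟨algebraMap K M (C.one b i), φ.trivOn _⟩
        have e : (fun i => φ.map (v i)) = (-1 : M') • C.oneV M' b := funext fun i => by
          rw [map_sub, map_mul, hi0, zero_mul, zero_sub, φ.map_algebraMap, neg_one_smul]
          rfl
        have e0 : (fun i => (v i : M)) = a⁻¹ • ((fun i => ψ (x i)) - a • C.oneV M b) :=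
          funext fun i => by
            simp [v, CurveData.oneV, mul_sub, ← mul_assoc, inv_mul_cancel₀ ha0]
        have h1 := mapDomain_secDiv φ v (e ▸ smul_ne_zero (by simp) (oneV_ne_zero b))
        rw [e, e0, secDiv_smul (inv_ne_zero ha0) (hne ψ a), secDiv_smul (by simp) (oneV_ne_zero b),
          secDiv_oneV] at h1
        show X.dval _ = 0
        rw [h1, X.dval_binf]

lemma dval_secDiv {b : ℕ} {v : C.Idx b → L} (hv : v ≠ 0) : X.dval (secDiv C b v) = 0 := by
  by_cases hc : ∀ c : L, v ≠ c • C.oneV L b
  · have h := (X.lineFamily v hc).y_eq (0 : L)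
    simpa [lineFamily] using h
  · push Not at hc
    obtain ⟨c, rfl⟩ := hc
    have hc0 : c ≠ 0 := fun e => hv (by rw [e, zero_smul])
    rw [secDiv_smul hc0 (oneV_ne_zero b), secDiv_oneV, X.dval_binf]

lemma dval_of_principal {E : Divisor L (C.curve L)}
    (hE : E ∈ Divisor.principal (K := L) (F := C.curve L)) : X.dval E = 0 := by
  obtain ⟨f, hf, hEf⟩ := hE
  have hp : (0 : Divisor L (C.curve L)) ≤ E ⊔ 0 := le_sup_right
  obtain ⟨d, hd⟩ := Int.eq_ofNat_of_zero_le ((C.rr L).degree_nonneg hp)
  set b := 2 * C.g + d + 1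
  have := (C.rr L).finite (C.binf L (b : ℤ) - (E ⊔ 0))
  have hne : riemannRochSpace (C.binf L (b : ℤ) - (E ⊔ 0)) ≠ ⊥ := fun e => by
    have h := (C.rr L).dim_eq (C.binf L (b : ℤ) - (E ⊔ 0))
      (by rw [C.rr_g, map_sub, C.deg_binf, hd]; omega)
    rw [e, finrank_bot, C.rr_g, map_sub, C.deg_binf, hd] at h
    omega
  obtain ⟨u, huD, hu0⟩ := (Submodule.ne_bot_iff _).1 hne
  have hu := (mem_Lsp_of_ne_zero hu0).1 huD
  have hw0 : u * f⁻¹ ≠ 0 := mul_ne_zero hu0 (inv_ne_zero hf)
  have hw : u * f⁻¹ ∈ riemannRochSpace (C.binf L (b : ℤ)) := by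
    rw [mem_Lsp_of_ne_zero hw0]
    intro v
    have h := hu v
    rw [Finsupp.sub_apply, Finsupp.sup_apply, Finsupp.zero_apply] at h
    rw [v.ord_mul hu0 (inv_ne_zero hf), v.ord_inv, hEf v] at *
    omega
  obtain ⟨x, hx⟩ := C.exists_realF_eq (C.Lsp_le_binf hp huD)
  obtain ⟨y, hy⟩ := C.exists_realF_eq hw
  have hx0 : x ≠ 0 := fun e => hu0 (by rw [← hx, e, map_zero])
  have hy0 : y ≠ 0 := fun e => hw0 (by rw [← hy, e, map_zero])
  have e : E = secDiv C b x - secDiv C b y := by
    rw [secDiv_eq hx0, secDiv_eq hy0]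
    refine Finsupp.ext fun v => ?_
    simp only [Finsupp.sub_apply, Finsupp.add_apply, (C.rr L).divisor_apply, hx, hy]
    rw [v.ord_mul hu0 (inv_ne_zero hf), v.ord_inv, hEf v]
    ring
  rw [e, map_sub, X.dval_secDiv hx0, X.dval_secDiv hy0, sub_zero]

variable (L) in
/-- **The sum of a class.** -/
def sum : Pic0 L (C.curve L) →+ D.Pt L :=
  QuotientAddGroup.lift _ (X.dval.comp (Divisor.degZero (K := L) (F := C.curve L)).subtype)
    fun _ hE => X.dval_of_principal (AddSubgroup.mem_addSubgroupOf.1 hE)

lemma sum_cls (E : Divisor L (C.curve L)) : X.sum L (C.cls L E) = X.dval E := by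
  show X.dval (E - C.binf L (Divisor.degree E)) = _
  rw [map_sub, X.dval_binf, sub_zero]

/-- The sum commutes with every specialisation. -/
lemma red_sum (φ : Spec K L L') (x : Pic0 L (C.curve L)) :
    D.red φ (X.sum L x) = X.sum L' ((specTheory C).pic φ x) := by
  obtain ⟨E, -, rfl⟩ := C.cls_surjective L x
  rw [(specTheory C).pic_cls, X.sum_cls, X.sum_cls, X.red_dval]

end CurvePt

end Fermat.Agent.AV

end
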