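import Fermat.Agent.AV.Abel.Base
import Fermat.Agent.AV.Abel.Point
import Fermat.Agent.AV.Abel.Sum

/-!
# Curves with sum maps from formal curves
-/

set_option autoImplicit false

noncomputable section

open AlgebraicCurve Fermat.Agent.MWJ0 Fermat.Agent.Row27

namespace Fermat.Agent.AV

universe u

variable {K : Type u} [Field K] [IsAlgClosed K]

/-- **Formal curves give curves with sum maps.** -/
theorem exists_sumCurves (D : AVData K) (H : FormalCurves D) : Nonempty (SumCurves D) := by
  have hC : ∀ i, ∃ (C : CurveData K) (X : CurvePt D C) (e : H.F i ≃ₐ[K] C.curve K),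
      X.c = D.map (e : H.F i →ₐ[K] C.curve K) (H.c i) := by
    intro i
    have := H.isFunctionField i
    obtain ⟨C, E, e, -, he⟩ := exists_curveBase K (H.F i) (H.O i)
    refine ⟨C, ⟨E, D.map (e : H.F i →ₐ[K] C.curve K) (H.c i), fun φ hφ => ?_⟩, e, rfl⟩
    show D.red φ (D.red _ _) = 0
    rw [D.red_red]
    refine H.red_O i _ (SetLike.ext fun f => ?_)
    rw [mem_specComp, mem_valuationSubring_iff_ord, ← he f]
    constructor
    · rintro ⟨h, h'⟩
      have h'' : e f ∈ (C.inf K).toValuationSubring := hφ ▸ h'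
      exact (mem_valuationSubring_iff_ord.1 h'').imp_left fun h0 => by
        simpa using congrArg e.symm h0
    · intro h
      refine ⟨ValuationSubring.mem_top _, ?_⟩
      show e f ∈ φ.dom
      rw [hφ, mem_valuationSubring_iff_ord]
      exact h.imp_left fun h0 => by rw [h0, map_zero]
  choose C X e hX using hC
  have hQ : ∀ i, ∃ Q : Place H.Ω ((C i).curve H.Ω), (X i).val Q = D.map (H.e i) (H.c i) := by
    intro i
    obtain ⟨Q, hQ⟩ := (X i).base.exists_pullSpec_eq
      ((H.e i).comp ((e i).symm : (C i).curve K →ₐ[K] H.F i))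
    refine ⟨Q, ?_⟩
    rw [CurvePt.val, hQ, hX i]
    refine (D.map_map _ _ _).trans ?_
    congr 2
    exact AlgHom.ext fun z => congrArg (H.e i) ((e i).symm_apply_apply z)
  choose Q hQ using hQ
  have hx : ∑ i, (X i).sum H.Ω ((C i).cls H.Ω (Finsupp.single (Q i) 1)) =
      ∑ i, D.map (H.e i) (H.c i) := by
    refine Finset.sum_congr rfl fun i _ => ?_
    rw [(X i).sum_cls, (X i).dval_single, one_smul, hQ i]
  exact ⟨{
    C := C
    sum := fun i L _ _ _ => (X i).sum L
    sum_pic := fun i _ _ _ _ _ _ _ _ ψ x => (X i).red_sum (Spec.ofAlgHom ψ) x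
    Ω := H.Ω
    Q := Q
    isGen := hx.symm ▸ H.isGen
    isAlgebraic := fun z => hx.symm ▸ H.isAlgebraic z }⟩

end Fermat.Agent.AV

end
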